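/-
T1B (S44), TORIC50 model fact (helper30): **`t` VANISHES AT THE CUSP `0`**.

For the Hauptmodul `t = tq · n e` (`(n, e) = (4, 8)` or `(9, 3)`) at every level `M` divisible by
`n`, the cusp value function `CuspExpMain11.cvT n e M` takes the value `some 0` at `γ = S`
(the cusp `0`): the Hermite data of `S` is `(a, e', b) = (1, n, b)`, so the expansion of `t` at `S`
has positive order.

* `cvT_S_general`, `cvT_S_four`, `cvT_S_nine` : `cvT n e M S = some 0`;
* `zero_mem_cuspSet_four`, `zero_mem_cuspSet_nine` : `(0 : A_K) ∈ ModelTargets4.cuspSet A K (cvT n e M)`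
  (the missing input of report 965 (CUSP-OFF) for the chart-`0` half of "all nodes lie in `U_01`");
* `notMem_of_cuspOff` : the one-line consequence of the first conjunct of
  `ES/P36/RegInst21.CuspOffItems` (stated against its literal shape, so that this file does not
  import `ES/P36`): the coordinate `t` does not lie in `x1`.
-/
import Mathlib
import Fermat.Agent.RED.BASE.MainCusp12
import Fermat.Agent.RED.ModelTargets4

set_option autoImplicit false
set_option linter.unusedSectionVars false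

noncomputable section

open ModularCurve
open scoped MatrixGroups

namespace Fermat.Agent.T1B.CuspOff30

open Fermat.Agent.X0 Fermat.Agent.X0.Analytic
open Fermat.Agent.X0.QExpAffine
open Fermat.Agent.IG.PR.Interface20 Fermat.Agent.IG.AN.DeltaAffine11
open Fermat.Agent.IG.AN.DeltaQuot19 Fermat.Agent.IG.AN.DeltaAffineBridge11
open Fermat.Agent.RED.BASE.Interface12 Fermat.Agent.RED.BASE.EtaQuot12
open Fermat.Agent.RED.BASE.CuspExpT11 Fermat.Agent.RED.BASE.CuspExpMain11
open Fermat.Agent.RED.BASE.QExpMem19 Fermat.Agent.RED.BASE.DeltaMem19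
open Fermat.Agent.RED.BASE.Hauptmodul12 Fermat.Agent.RED.BASE.Main12
open Fermat.Agent.RED.Interface4 Fermat.Agent.RED.ModelTargets4

/-- The Hermite data `(a, e, b)` of `S` has `a = 1`. -/
theorem hermiteRel_S {d : ℕ} {a e : ℕ} {b : ℤ} (h : Fermat.Agent.RED.BASE.CuspExpT11.HermiteRel d ModularGroup.S a e b) : a = 1 := by
  obtain ⟨γ', -, -, h10, -⟩ := h
  have hS : (ModularGroup.S : SL(2, ℤ)) 1 0 = 1 := by
    simp [ModularGroup.S]
  rw [hS] at h10
  have hdvd : (a : ℤ) ∣ 1 := Dvd.intro_left _ h10.symm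
  have : ((a : ℤ)).natAbs = 1 := Int.natAbs_dvd_natAbs.mpr hdvd |> Nat.dvd_one.mp
  simpa using this

section General

variable (p : ℕ) [NeZero p] (s k r c M : ℕ) [NeZero c] [NeZero M]

/-- The expansion of `t` at `S` has positive order: cusp value `some 0`. -/
theorem cvE_S (hM : p * c = M) (hp1 : 1 < p) (hk : 0 < k) (hkr : r * k = 24)
    (hdiv : ∀ a e : ℕ, a * e = p → (k : ℤ) ∣ (p : ℤ) - ((a * (p / e) : ℕ) : ℤ))
    (t u : FF M) (htu : t ^ k * u = 1)
    (hT : ∀ (γ : SL(2, ℤ)) (T : LaurentSeries Kbar),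
      IntgQN M (compSL (deltaQuot p) γ) (toC T) → (cuspData M).T γ u = T) :
    cvE ((cuspData M).T ModularGroup.S t) = some 0 := by
  obtain ⟨a, e, b, c₀, o, ha, he, hae, hb0, hbe, hprim, hrel, hc₀, ho, hE⟩ :=
    cusp_expansion p c M hM hk hkr hdiv t u htu hT ModularGroup.S
  have ha1 : a = 1 := hermiteRel_S hrel
  subst ha1
  have hep : e = p := by rw [← hae, one_mul]
  subst hep
  have hp0 : 0 < e := he
  have hunit : IsUnitAway e c₀ := isUnitAway_const e he dvd_rfl hk hc₀
  have hVint : ∀ i, IsIntAway e (PowerSeries.coeff i (VK e 1 e b r)) := fun i =>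
    isIntAway_of_isIntegral (isIntegral_of_mem_closure_zetaK e (coeff_VK_mem e 1 b he dvd_rfl r i))
  have hk0 : (0 : ℤ) < k := by exact_mod_cast hk
  have hval : 1 * (e / e) = 1 := by rw [Nat.div_self hp0]
  rw [hval] at ho
  have ho' : 0 < o := by
    push_cast at ho
    have h1 : (1 : ℤ) < e := by exact_mod_cast hp1
    by_contra hcon
    have hcon := not_lt.mp hcon
    have : (k : ℤ) * o ≤ 0 := mul_nonpos_of_nonneg_of_nonpos hk0.le hcon
    omega
  rw [hE]
  exact (shape_zero (m := e) c ho' hunit (constantCoeff_VK e 1 e b r) hVint).1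

end General

/-- **`t` vanishes at the cusp `0`**, general form (`n = s²`, `e k = 24`, `t^k u = 1`). -/
theorem cvT_S_general (n e k M : ℕ) [NeZero n] [NeZero M] (hnM : n ∣ M) (hn1 : 1 < n)
    (hk : 0 < k) (hkr : e * k = 24)
    (hpow : tq Kbar n e ^ k * uq Kbar n = 1)
    (hdiv : ∀ a e' : ℕ, a * e' = n → (k : ℤ) ∣ (n : ℤ) - ((a * (n / e') : ℕ) : ℤ))
    (h : TMem n e n) : cvT n e M ModularGroup.S = some 0 := by
  obtain ⟨c, rfl⟩ := hnM
  have hc : NeZero c := ⟨fun h0 => NeZero.ne (n * c) (by rw [h0, mul_zero])⟩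
  have hnM : n ∣ n * c := Dvd.intro c rfl
  have h' : TMem n e (n * c) := TMem.mono hnM h
  have hnice : IsNice (n * c) (uq Kbar n) (deltaQuot n) := isNice_of_dvd hnM (isNice_deltaQuot n)
  set t : FF (n * c) := tF (n * c) h' with ht
  set u : FF (n * c) := ⟨uq Kbar n, mem_of_isNice hnice⟩ with hu
  have htu : t ^ k * u = 1 := Subtype.ext hpow
  have hT : ∀ (γ : SL(2, ℤ)) (T : LaurentSeries Kbar),
      IntgQN (n * c) (compSL (deltaQuot n) γ) (toC T) → (cuspData (n * c)).T γ u = T :=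
    fun γ T hT => T_eq_of_isNice hnice γ T hT
  rw [cvT_eq n e (n * c) h' ModularGroup.S]
  exact cvE_S n k e c (n * c) rfl hn1 hk hkr hdiv t u htu hT

/-- `t₄` vanishes at the cusp `0`, at every level divisible by `4`. -/
theorem cvT_S_four (M : ℕ) [NeZero M] (hM : 4 ∣ M) : cvT 4 8 M ModularGroup.S = some 0 := by
  refine cvT_S_general 4 8 3 M hM (by norm_num) (by norm_num) (by norm_num) ?_ hdiv_four
    (tMem baseHyp_four)
  exact tq_pow_mul_uq Kbar 4 8 (by norm_num)

/-- `t₉` vanishes at the cusp `0`, at every level divisible by `9`. -/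
theorem cvT_S_nine (M : ℕ) [NeZero M] (hM : 9 ∣ M) : cvT 9 3 M ModularGroup.S = some 0 := by
  refine cvT_S_general 9 3 8 M hM (by norm_num) (by norm_num) (by norm_num) ?_ hdiv_nine
    (tMem baseHyp_nine)
  exact tq_pow_mul_uq Kbar 9 3 (by norm_num)

/-- **`0 ∈ cuspSet`** for `t₄`. -/
theorem zero_mem_cuspSet_four (A : ValuationSubring Qbar) (K : IntermediateField ℚ Qbar)
    (M : ℕ) [NeZero M] (hM : 4 ∣ M) : (0 : ↥(AK A K)) ∈ cuspSet A K (cvT 4 8 M) := by
  refine ⟨ModularGroup.S, ?_⟩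
  rw [cvT_S_four M hM]
  simp

/-- **`0 ∈ cuspSet`** for `t₉`. -/
theorem zero_mem_cuspSet_nine (A : ValuationSubring Qbar) (K : IntermediateField ℚ Qbar)
    (M : ℕ) [NeZero M] (hM : 9 ∣ M) : (0 : ↥(AK A K)) ∈ cuspSet A K (cvT 9 3 M) := by
  refine ⟨ModularGroup.S, ?_⟩
  rw [cvT_S_nine M hM]
  simp

/-- The one-line consequence for a chart: if the points `x1` avoid the sections `t = c` for all
`c ∈ Sset` (first conjunct of `RegInst21.CuspOffItems`, literal shape) and `0 ∈ Sset`, then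
`t ∉ x1`. -/
theorem notMem_of_cuspOff {R F : Type*} [CommRing R] [Field F] [Algebra R F] {B : Subalgebra R F}
    {t : F} (ht : t ∈ B) {Sset : Set R} (h0 : (0 : R) ∈ Sset) (x1 : Ideal ↥B)
    (hc : ∀ c ∈ Sset, ∀ y : ↥B, (y : F) = t - algebraMap R F c → y ∉ x1) :
    (⟨t, ht⟩ : ↥B) ∉ x1 :=
  hc 0 h0 ⟨t, ht⟩ (by rw [map_zero, sub_zero])

end Fermat.Agent.T1B.CuspOff30
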