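/-
T1B (S44), TORIC50 model fact (helper30): **ALL NODES OF THE NODAL MODEL LIE IN `U_01`**.

For Program N/P's concrete nodal model (`ES/N34/ModelDefs9`: `t = tN q ht`, charts `B0 A q ht`,
`B1 A q ht`, vertical valuation rings `O1`, `O2`), at every number field `K ∋ ζ_{M'}` with a
Frobenius inverse (e.g. every normal `K`: `ModelQAt4.frobInvAt_of_normal`):

* chart `0`: no two-branch maximal ideal `x1` of `B0` contains `t`;
* chart `1`: no two-branch maximal ideal `x1` of `B1` contains `t⁻¹`.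

Chart `1` is literally in `CuspOffAsm21.cuspOffItems_at`; chart `0` is its first conjunct at the cusp
value `c = 0 ∈ cuspSet` (`CuspZero.zero_mem_cuspSet_four/nine`: `t` vanishes at the cusp `0`).
-/
import Mathlib
import Fermat.Agent.ES.P36.RegClosed21
import Fermat.Agent.T1B.CuspOff30.CuspZero

set_option autoImplicit false
set_option synthInstance.maxHeartbeats 400000
set_option linter.unusedSectionVars false

noncomputable section

open HahnSeries ModularCurve IntermediateField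
open scoped MatrixGroups

namespace Fermat.Agent.T1B.CuspOff30

open Fermat.Agent.RED.Interface4 Fermat.Agent.RED.PUR.GaussGen8 Fermat.Agent.RED.BASE.EtaQuot12
  Fermat.Agent.RED.ModelTargets4 Fermat.Agent.RED.BASE Fermat.Agent.RED.PUR.ChartGeneric22
  Fermat.Agent.ES.N34.ModelDefs9 Fermat.Agent.ES.N34.ModelN4 Fermat.Agent.ES.N34.NodalCore13
  Fermat.Agent.ES.P36.ModelQAt4 Fermat.Agent.ES.P36.RegInst21 Fermat.Agent.X0

variable {n e : ℕ} [NeZero n] {M' : ℕ} [NeZero M'] {q : ℕ} [NeZero q] {A : ValuationSubring Qbar}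
  {K : IntermediateField ℚ Qbar}

/-- **All nodes lie in `U_01`**, from `CuspOffItems` and `0 ∈ Sset`. -/
theorem nodes_in_U01_of_cuspOff {Sset : Set ↥(AK A K)} (h0 : (0 : ↥(AK A K)) ∈ Sset)
    (hcusp : CuspOffItems n e q M' A K Sset)
    (ht : tq (↥K) n e ∈ FK M' K) (hE : FK (M' * q) K ≤ fracField (AK A K))
    (π : ↥(AK A K)) (hπ : IsUnif (AK A K) π) :
    (∀ x1 : Ideal ↥(B0 A q ht), x1.IsMaximal →
      ¬ OffBranch π (B0 A q ht) (O1 M' q hπ hE) x1 → ¬ OffBranch π (B0 A q ht) (O2 M' q hπ hE) x1 →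
      (⟨tN q ht, self_mem_chart (tN q ht)⟩ : ↥(B0 A q ht)) ∉ x1) ∧
    (∀ x1 : Ideal ↥(B1 A q ht), x1.IsMaximal →
      ¬ OffBranch π (B1 A q ht) (O1 M' q hπ hE) x1 → ¬ OffBranch π (B1 A q ht) (O2 M' q hπ hE) x1 →
      (⟨(tN q ht)⁻¹, self_mem_chart (tN q ht)⁻¹⟩ : ↥(B1 A q ht)) ∉ x1) := by
  obtain ⟨hc0, hc1⟩ := hcusp ht hE π hπ
  refine ⟨fun x1 hx1 h1 h2 => ?_, fun x1 hx1 h1 h2 => ?_⟩
  · exact notMem_of_cuspOff (self_mem_chart (tN q ht)) h0 x1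
      (hc0 x1 hx1 (onBranch_of_not_offBranch π _ _ x1 h1) (onBranch_of_not_offBranch π _ _ x1 h2))
  · exact (hc1 x1 hx1 (onBranch_of_not_offBranch π _ _ x1 h1)
      (onBranch_of_not_offBranch π _ _ x1 h2)).1 _ rfl

/-- **All nodes lie in `U_01`**: `q` odd, `4 ∣ M'`, Hauptmodul `tq · 4 8`. -/
theorem nodes_in_U01_four (hq : q.Prime) (hq2 : q ≠ 2) (hqM : ¬ q ∣ M') (hM : 4 ∣ M')
    (hA : A.LiesOverPrime q) [FiniteDimensional ℚ K] (hζ : zetaK M' ∈ K)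
    (hF : FrobInvAt A K q)
    (ht : tq (↥K) 4 8 ∈ FK M' K) (hE : FK (M' * q) K ≤ fracField (AK A K))
    (π : ↥(AK A K)) (hπ : IsUnif (AK A K) π) :
    (∀ x1 : Ideal ↥(B0 A q ht), x1.IsMaximal →
      ¬ OffBranch π (B0 A q ht) (O1 M' q hπ hE) x1 → ¬ OffBranch π (B0 A q ht) (O2 M' q hπ hE) x1 →
      (⟨tN q ht, self_mem_chart (tN q ht)⟩ : ↥(B0 A q ht)) ∉ x1) ∧
    (∀ x1 : Ideal ↥(B1 A q ht), x1.IsMaximal →
      ¬ OffBranch π (B1 A q ht) (O1 M' q hπ hE) x1 → ¬ OffBranch π (B1 A q ht) (O2 M' q hπ hE) x1 →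
      (⟨(tN q ht)⁻¹, self_mem_chart (tN q ht)⁻¹⟩ : ↥(B1 A q ht)) ∉ x1) := by
  have : NeZero (M' * q) := ⟨Nat.mul_ne_zero (NeZero.ne M') (NeZero.ne q)⟩
  have hqn : ¬ q ∣ 4 := by
    intro h
    have h' : q ∣ 2 := hq.dvd_of_dvd_pow (show q ∣ 2 ^ 2 by simpa using h)
    exact hq2 ((Nat.prime_dvd_prime_iff_eq hq Nat.prime_two).1 h')
  obtain ⟨-, -, hS2, -, -⟩ := items_four_at (K := K) hq hq2 hqM hM hA hζ hF
  have hL := Fermat.Agent.ES.P36.LevelMAt4.levelItems_four_at (K := K) hq hqM hM hA hζ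
  have hD := nodalNumData_four_at (K := K) hq hq2 hqM hM hA hζ hF
  exact nodes_in_U01_of_cuspOff
    (zero_mem_cuspSet_four A K (M' * q) (Dvd.dvd.mul_right hM q))
    (Fermat.Agent.ES.P36.CuspOffAsm21.cuspOffItems_at Hauptmodul12.baseHyp_four hq hqn hqM hA hF
      hL hS2 hD (Dvd.dvd.mul_right hM q) _
      (MainCusp12.cuspExports_four (M' * q) (Dvd.dvd.mul_right hM q)).cuspExp) ht hE π hπ

/-- **All nodes lie in `U_01`**: `q = 2`, `9 ∣ M'`, Hauptmodul `tq · 9 3`. -/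
theorem nodes_in_U01_nine [NeZero 2] (hqM : ¬ 2 ∣ M') (hM : 9 ∣ M')
    (hA : A.LiesOverPrime 2) [FiniteDimensional ℚ K] (hζ : zetaK M' ∈ K)
    (hF : FrobInvAt A K 2)
    (ht : tq (↥K) 9 3 ∈ FK M' K) (hE : FK (M' * 2) K ≤ fracField (AK A K))
    (π : ↥(AK A K)) (hπ : IsUnif (AK A K) π) :
    (∀ x1 : Ideal ↥(B0 A 2 ht), x1.IsMaximal →
      ¬ OffBranch π (B0 A 2 ht) (O1 M' 2 hπ hE) x1 → ¬ OffBranch π (B0 A 2 ht) (O2 M' 2 hπ hE) x1 →
      (⟨tN 2 ht, self_mem_chart (tN 2 ht)⟩ : ↥(B0 A 2 ht)) ∉ x1) ∧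
    (∀ x1 : Ideal ↥(B1 A 2 ht), x1.IsMaximal →
      ¬ OffBranch π (B1 A 2 ht) (O1 M' 2 hπ hE) x1 → ¬ OffBranch π (B1 A 2 ht) (O2 M' 2 hπ hE) x1 →
      (⟨(tN 2 ht)⁻¹, self_mem_chart (tN 2 ht)⁻¹⟩ : ↥(B1 A 2 ht)) ∉ x1) := by
  have : NeZero (M' * 2) := ⟨Nat.mul_ne_zero (NeZero.ne M') two_ne_zero⟩
  obtain ⟨-, -, hS2, -, -⟩ := items_nine_at (K := K) hqM hM hA hζ hF
  have hL := Fermat.Agent.ES.P36.LevelMAt4.levelItems_nine_at (K := K) Nat.prime_two hqM hM hA hζ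
  have hD := nodalNumData_nine_at (K := K) hqM hM hA hζ hF
  exact nodes_in_U01_of_cuspOff
    (zero_mem_cuspSet_nine A K (M' * 2) (Dvd.dvd.mul_right hM 2))
    (Fermat.Agent.ES.P36.CuspOffAsm21.cuspOffItems_at Hauptmodul12.baseHyp_nine Nat.prime_two
      (by decide) hqM hA hF hL hS2 hD (Dvd.dvd.mul_right hM 2) _
      (MainCusp12.cuspExports_nine (M' * 2) (Dvd.dvd.mul_right hM 2)).cuspExp) ht hE π hπ

end Fermat.Agent.T1B.CuspOff30
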